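import Mathlib

/-!
# Row LT, tower A2, sub-leaf A2.03.4.2 (GaussSumC), part 1: bounded denominators (helper139)

OFF-MAIN.  Mathlib only.  A compact set of finite adeles has bounded denominators: there is a
positive integer `M` with `M x` integral at every finite place for all `x` in the set
(`exists_den_of_isCompact139`); a rational `ξ` whose finite adele has denominator dividing `M`
is `a / M` with `a` in the ring of integers (`exists_int_of_mem_denSet139`).
-/

set_option autoImplicit false

open IsDedekindDomain NumberField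
open scoped RestrictedProduct

noncomputable section

namespace Fermat.Agent.LT.A2.H139

variable (K : Type) [Field K] [NumberField K]

/-- The integral finite adeles. -/
def intAdele139 : Set (FiniteAdeleRing (𝓞 K) K) :=
  {x | ∀ v : HeightOneSpectrum (𝓞 K), x v ∈ v.adicCompletionIntegers K}

/-- The finite adeles with denominator dividing `M`. -/
def denSet139 (M : ℕ) : Set (FiniteAdeleRing (𝓞 K) K) :=
  {x | (M : FiniteAdeleRing (𝓞 K) K) * x ∈ intAdele139 K}

theorem mem_denSet139 (M : ℕ) (x : FiniteAdeleRing (𝓞 K) K) :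
    x ∈ denSet139 K M ↔
      ∀ v : HeightOneSpectrum (𝓞 K), (M : v.adicCompletion K) * x v ∈ v.adicCompletionIntegers K :=
  Iff.rfl

theorem natCast_coe139 (v : HeightOneSpectrum (𝓞 K)) (n : ℕ) :
    (n : v.adicCompletion K) = ((n : K) : v.adicCompletion K) :=
  (map_natCast (algebraMap K (v.adicCompletion K)) n).symm

theorem valued_natCast_absNorm_lt_one139 (v : HeightOneSpectrum (𝓞 K)) :
    Valued.v ((Ideal.absNorm v.asIdeal : ℕ) : v.adicCompletion K) < 1 := by
  rw [natCast_coe139, HeightOneSpectrum.valuedAdicCompletion_eq_valuation',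
    ← map_natCast (algebraMap (𝓞 K) K), HeightOneSpectrum.valuation_lt_one_iff_mem]
  exact Ideal.absNorm_mem _

theorem exists_nat_mul_mem139 (v : HeightOneSpectrum (𝓞 K)) (y : v.adicCompletion K) :
    ∃ m : ℕ, m ≠ 0 ∧ (m : v.adicCompletion K) * y ∈ v.adicCompletionIntegers K := by
  by_cases hy : y = 0
  · exact ⟨1, one_ne_zero, by simp [hy]⟩
  have hp0 : Ideal.absNorm v.asIdeal ≠ 0 := by
    rw [Ne, Ideal.absNorm_eq_zero_iff]
    exact v.ne_bot
  have hvy : Valued.v y ≠ 0 := by
    rwa [Ne, Valuation.zero_iff]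
  obtain ⟨n, hn⟩ := exists_pow_lt₀ (valued_natCast_absNorm_lt_one139 K v) (Units.mk0 _ hvy)⁻¹
  refine ⟨Ideal.absNorm v.asIdeal ^ n, pow_ne_zero _ hp0, ?_⟩
  rw [HeightOneSpectrum.mem_adicCompletionIntegers]
  push_cast
  rw [map_mul, map_pow]
  have h2 : Valued.v ((Ideal.absNorm v.asIdeal : ℕ) : v.adicCompletion K) ^ n * Valued.v y
      < ((Units.mk0 _ hvy)⁻¹ : (WithZero (Multiplicative ℤ))ˣ) * Valued.v y :=
    mul_lt_mul_of_pos_right hn (zero_lt_iff.mpr hvy)
  have h3 : (((Units.mk0 _ hvy)⁻¹ : (WithZero (Multiplicative ℤ))ˣ) : WithZero (Multiplicative ℤ))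
      * Valued.v y = 1 := by
    rw [Units.val_inv_eq_inv_val, Units.val_mk0]
    exact inv_mul_cancel₀ hvy
  rw [h3] at h2
  exact h2.le

theorem denSet_mono139 {M M' : ℕ} (h : M ∣ M') : denSet139 K M ⊆ denSet139 K M' := by
  obtain ⟨c, rfl⟩ := h
  intro x hx
  rw [mem_denSet139] at hx ⊢
  intro v
  have h1 : ((M * c : ℕ) : v.adicCompletion K) * x v
      = (c : v.adicCompletion K) * ((M : v.adicCompletion K) * x v) := by
    push_cast
    ring
  rw [h1]
  exact mul_mem (natCast_mem _ c) (hx v)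

theorem exists_den139 (x : FiniteAdeleRing (𝓞 K) K) : ∃ M : ℕ, M ≠ 0 ∧ x ∈ denSet139 K M := by
  classical
  have hfin : {v : HeightOneSpectrum (𝓞 K) | x v ∉ v.adicCompletionIntegers K}.Finite := by
    have := x.2
    rwa [Filter.eventually_cofinite] at this
  choose m hm0 hm using fun v : HeightOneSpectrum (𝓞 K) => exists_nat_mul_mem139 K v (x v)
  refine ⟨∏ v ∈ hfin.toFinset, m v, Finset.prod_ne_zero_iff.mpr fun v _ => hm0 v, ?_⟩
  rw [mem_denSet139]
  intro w
  by_cases hw : x w ∈ w.adicCompletionIntegers K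
  · exact mul_mem (natCast_mem _ _) hw
  · have hwT : w ∈ hfin.toFinset := by
      rw [Set.Finite.mem_toFinset]
      exact hw
    have h1 : ((∏ v ∈ hfin.toFinset, m v : ℕ) : w.adicCompletion K) * x w
        = ((∏ v ∈ hfin.toFinset.erase w, m v : ℕ) : w.adicCompletion K)
          * ((m w : w.adicCompletion K) * x w) := by
      rw [← Finset.mul_prod_erase _ _ hwT]
      push_cast
      ring
    rw [h1]
    exact mul_mem (natCast_mem _ _) (hm w)

theorem isOpen_intAdele139 : IsOpen (intAdele139 K) := by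
  have h : ∀ v : HeightOneSpectrum (𝓞 K),
      IsOpen (v.adicCompletionIntegers K : Set (v.adicCompletion K)) :=
    fun _ => Valued.isOpen_valuationSubring _
  exact RestrictedProduct.isOpen_forall_mem h

theorem isOpen_denSet139 (M : ℕ) : IsOpen (denSet139 K M) :=
  (isOpen_intAdele139 K).preimage (continuous_const.mul continuous_id)

/-- **Bounded denominators**: a compact set of finite adeles is contained in `M⁻¹ ∏ 𝒪_v`. -/
theorem exists_den_of_isCompact139 (C : Set (FiniteAdeleRing (𝓞 K) K)) (hC : IsCompact C) :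
    ∃ M : ℕ, M ≠ 0 ∧ C ⊆ denSet139 K M := by
  classical
  obtain ⟨t, ht⟩ := hC.elim_finite_subcover (fun i : ℕ => denSet139 K (i + 1))
    (fun i => isOpen_denSet139 K (i + 1)) (by
      intro x _
      obtain ⟨M, hM0, hM⟩ := exists_den139 K x
      rw [Set.mem_iUnion]
      refine ⟨M - 1, ?_⟩
      rwa [Nat.sub_add_cancel (Nat.one_le_iff_ne_zero.mpr hM0)])
  refine ⟨∏ i ∈ t, (i + 1), Finset.prod_ne_zero_iff.mpr fun i _ => Nat.succ_ne_zero i, ?_⟩
  intro x hx
  obtain ⟨i, hi, hxi⟩ : ∃ i ∈ t, x ∈ denSet139 K (i + 1) := by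
    have := ht hx
    simpa [Set.mem_iUnion] using this
  exact denSet_mono139 K (Finset.dvd_prod_of_mem _ hi) hxi

/-- A rational number whose finite adele has denominator dividing `M` is `a / M` with `a`
integral. -/
theorem exists_int_of_mem_denSet139 {M : ℕ} (ξ : K)
    (h : algebraMap K (FiniteAdeleRing (𝓞 K) K) ξ ∈ denSet139 K M) :
    ∃ a : 𝓞 K, (a : K) = (M : K) * ξ := by
  have h1 : ∀ v : HeightOneSpectrum (𝓞 K), v.valuation K ((M : K) * ξ) ≤ 1 := by
    intro v
    have h2 := (mem_denSet139 K M _).mp h v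
    rw [HeightOneSpectrum.mem_adicCompletionIntegers, FiniteAdeleRing.algebraMap_apply,
      natCast_coe139, ← HeightOneSpectrum.adicCompletion.coe_mul,
      HeightOneSpectrum.valuedAdicCompletion_eq_valuation'] at h2
    exact h2
  obtain ⟨a, ha⟩ := HeightOneSpectrum.mem_integers_of_valuation_le_one K _ h1
  exact ⟨a, ha⟩

end Fermat.Agent.LT.A2.H139
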