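import Mathlib
import Fermat.Agent.LT.A2.H139.GaussDen

/-!
# Row LT, tower A2, sub-leaf A2.03.4.2 (GaussSumC), part 2: Gaussian lattice sums (helper139)

OFF-MAIN.  Mathlib only (plus part 1).  Gaussian sums over a discrete subgroup of a finite
dimensional normed space converge (`summable_exp_lattice139`); Gaussian sums over the rational
vectors `ξ ∈ K²` whose finite adeles lie in a compact set: summability and the bound
`σ^N ∑_{ξ ≠ 0} ≤ C` uniformly in `σ ≥ σ₀` (`gaussSum_core139`).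
-/

set_option autoImplicit false

open IsDedekindDomain NumberField
open scoped Classical

noncomputable section

namespace Fermat.Agent.LT.A2.H139

/-- Gaussian sums over a discrete subgroup of a finite-dimensional normed space converge. -/
theorem summable_exp_lattice139 {E : Type*} [NormedAddCommGroup E] [NormedSpace ℝ E]
    [FiniteDimensional ℝ E] (L : Submodule ℤ E) [DiscreteTopology L] (c : ℝ) (hc : 0 < c) :
    Summable fun z : L => Real.exp (-(c * ‖(z : E)‖ ^ 2)) := by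
  classical
  set n : ℕ := Module.finrank ℤ L + 1 with hn
  have h2n : Module.finrank ℤ L < 2 * n := by omega
  have hs1 : Summable fun z : L => (n.factorial / c ^ n : ℝ) * ‖z‖⁻¹ ^ (2 * n) :=
    (ZLattice.summable_norm_pow_inv L (2 * n) h2n).mul_left _
  have hs2 : Summable fun z : L => if z = 0 then (1 : ℝ) else 0 :=
    (hasSum_ite_eq (0 : L) (1 : ℝ)).summable
  refine Summable.of_nonneg_of_le (fun z => (Real.exp_pos _).le) (fun z => ?_) (hs1.add hs2)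
  by_cases hz : z = 0
  · subst hz
    have h0 : (0 : ℝ) ≤ (n.factorial / c ^ n : ℝ) * ‖(0 : L)‖⁻¹ ^ (2 * n) := by positivity
    simp
  · have ht : 0 < ‖(z : E)‖ := by
      rw [norm_pos_iff]
      exact fun h => hz (Subtype.ext h)
    have hx : 0 ≤ c * ‖(z : E)‖ ^ 2 := by positivity
    have h1 := Real.pow_div_factorial_le_exp _ hx n
    have hpos : 0 < (c * ‖(z : E)‖ ^ 2) ^ n / (n.factorial : ℝ) := by positivity
    have h2 : Real.exp (-(c * ‖(z : E)‖ ^ 2))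
        ≤ (n.factorial / c ^ n : ℝ) * ‖z‖⁻¹ ^ (2 * n) := by
      rw [Real.exp_neg]
      calc (Real.exp (c * ‖(z : E)‖ ^ 2))⁻¹
          ≤ ((c * ‖(z : E)‖ ^ 2) ^ n / (n.factorial : ℝ))⁻¹ := inv_anti₀ hpos h1
        _ = (n.factorial / c ^ n : ℝ) * ‖z‖⁻¹ ^ (2 * n) := by
            have hnorm : ‖z‖ = ‖(z : E)‖ := rfl
            rw [hnorm]
            have hc' : c ≠ 0 := hc.ne'
            have ht' : ‖(z : E)‖ ≠ 0 := ht.ne'
            have h3 : ‖(z : E)‖⁻¹ ^ (2 * n) = ((‖(z : E)‖ ^ 2) ^ n)⁻¹ := by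
              rw [inv_pow, pow_mul]
            rw [h3, inv_div, mul_pow]
            field_simp
    simpa [hz] using h2

variable (K : Type) [Field K] [NumberField K]

/-- `q(ξ) = ∑_w ‖ξ‖_w²` (sum over the infinite places, norms not normalised). -/
def q139 (ξ : K) : ℝ := ∑ w : InfinitePlace K, (w ξ) ^ 2

theorem q139_nonneg (ξ : K) : 0 ≤ q139 K ξ := Finset.sum_nonneg fun _ _ => sq_nonneg _

theorem norm_sq_le_q139 (ξ : K) : ‖mixedEmbedding K ξ‖ ^ 2 ≤ q139 K ξ := by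
  classical
  rw [mixedEmbedding.norm_eq_sup'_normAtPlace]
  obtain ⟨w, -, hw⟩ := Finset.exists_mem_eq_sup' Finset.univ_nonempty
    (fun w : InfinitePlace K => mixedEmbedding.normAtPlace w (mixedEmbedding K ξ))
  rw [hw, mixedEmbedding.normAtPlace_apply]
  exact Finset.single_le_sum (f := fun w : InfinitePlace K => (w ξ) ^ 2)
    (fun w _ => sq_nonneg _) (Finset.mem_univ w)

theorem q139_natCast_mul (M : ℕ) (ξ : K) : q139 K ((M : K) * ξ) = (M : ℝ) ^ 2 * q139 K ξ := by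
  unfold q139
  rw [Finset.mul_sum]
  refine Finset.sum_congr rfl fun w _ => ?_
  rw [map_mul, InfinitePlace.map_natCast, mul_pow]

/-- A nonzero algebraic integer has `q ≥ 1`. -/
theorem one_le_q139 (a : 𝓞 K) (ha : a ≠ 0) : 1 ≤ q139 K (a : K) := by
  classical
  obtain ⟨w, hw⟩ : ∃ w : InfinitePlace K, 1 ≤ w (a : K) := by
    by_contra hcon
    push Not at hcon
    obtain ⟨w₀⟩ : Nonempty (InfinitePlace K) := inferInstance
    exact absurd (InfinitePlace.one_le_of_lt_one ha fun z _ => hcon z) (not_le.mpr (hcon w₀))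
  have h1 : (w (a : K)) ^ 2 ≤ q139 K (a : K) :=
    Finset.single_le_sum (f := fun w : InfinitePlace K => (w (a : K)) ^ 2)
      (fun w _ => sq_nonneg _) (Finset.mem_univ w)
  nlinarith

theorem summable_exp_integers139 (c : ℝ) (hc : 0 < c) :
    Summable fun a : 𝓞 K => Real.exp (-(c * q139 K (a : K))) := by
  have h1 := summable_exp_lattice139 (mixedEmbedding.integerLattice K) c hc
  let j : 𝓞 K → mixedEmbedding.integerLattice K := fun a =>
    ⟨mixedEmbedding K (a : K), LinearMap.mem_range.mpr ⟨a, rfl⟩⟩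
  have hj : Function.Injective j := by
    intro a b hab
    have h2 : mixedEmbedding K (a : K) = mixedEmbedding K (b : K) := congrArg Subtype.val hab
    exact RingOfIntegers.coe_injective (mixedEmbedding_injective K h2)
  refine Summable.of_nonneg_of_le (fun a => (Real.exp_pos _).le) (fun a => ?_)
    (h1.comp_injective hj)
  simp only [Function.comp, j]
  apply Real.exp_le_exp.mpr
  have h3 := norm_sq_le_q139 K (a : K)
  nlinarith

/-- The one-variable Gaussian on `M⁻¹ 𝒪_K`. -/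
def gauss1_139 (M : ℕ) (c : ℝ) (ξ : K) : ℝ :=
  Set.indicator {ξ : K | ∃ a : 𝓞 K, (a : K) = (M : K) * ξ}
    (fun ξ => Real.exp (-(c * q139 K ξ))) ξ

theorem gauss1_139_nonneg (M : ℕ) (c : ℝ) (ξ : K) : 0 ≤ gauss1_139 K M c ξ :=
  Set.indicator_nonneg (fun _ _ => (Real.exp_pos _).le) _

theorem summable_gauss1_139 (M : ℕ) (hM : M ≠ 0) (c : ℝ) (hc : 0 < c) :
    Summable (gauss1_139 K M c) := by
  have hMK : (M : K) ≠ 0 := Nat.cast_ne_zero.mpr hM
  have hMR : (M : ℝ) ≠ 0 := Nat.cast_ne_zero.mpr hM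
  let j : 𝓞 K → K := fun a => (M : K)⁻¹ * (a : K)
  have hj : Function.Injective j := by
    intro a b hab
    exact RingOfIntegers.coe_injective (mul_left_cancel₀ (inv_ne_zero hMK) hab)
  have hcomp : Summable (gauss1_139 K M c ∘ j) := by
    have h1 := summable_exp_integers139 K (c / (M : ℝ) ^ 2) (by positivity)
    refine h1.congr fun a => ?_
    have hmem : j a ∈ {ξ : K | ∃ a : 𝓞 K, (a : K) = (M : K) * ξ} :=
      ⟨a, by simp only [j]; rw [mul_inv_cancel_left₀ hMK]⟩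
    have hq : q139 K (a : K) = (M : ℝ) ^ 2 * q139 K (j a) := by
      rw [← q139_natCast_mul]
      simp only [j]
      rw [mul_inv_cancel_left₀ hMK]
    simp only [Function.comp, gauss1_139, Set.indicator_of_mem hmem]
    rw [hq]
    congr 2
    field_simp
  refine (Function.Injective.summable_iff hj fun ξ hξ => ?_).mp hcomp
  apply Set.indicator_of_notMem
  rintro ⟨a, ha⟩
  exact hξ ⟨a, by simp only [j]; rw [ha, inv_mul_cancel_left₀ hMK]⟩

/-- The Gaussian majorant on the rational vectors with finite part in `B`. -/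
def gaussG139 (B : Set (FiniteAdeleRing (𝓞 K) K × FiniteAdeleRing (𝓞 K) K)) (δ σ : ℝ)
    (ξ : K × K) : ℝ :=
  Set.indicator {ξ : K × K | (algebraMap K (FiniteAdeleRing (𝓞 K) K) ξ.1,
      algebraMap K (FiniteAdeleRing (𝓞 K) K) ξ.2) ∈ B}
    (fun ξ : K × K => Real.exp (-(δ * σ ^ 2 * (q139 K ξ.1 + q139 K ξ.2)))) ξ

theorem gaussG139_nonneg (B : Set (FiniteAdeleRing (𝓞 K) K × FiniteAdeleRing (𝓞 K) K))
    (δ σ : ℝ) (ξ : K × K) : 0 ≤ gaussG139 K B δ σ ξ :=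
  Set.indicator_nonneg (fun _ _ => (Real.exp_pos _).le) _

/-- Bounded denominators for a compact set of pairs of finite adeles. -/
theorem exists_den_pair139 (B : Set (FiniteAdeleRing (𝓞 K) K × FiniteAdeleRing (𝓞 K) K))
    (hB : IsCompact B) : ∃ M : ℕ, M ≠ 0 ∧ ∀ ξ : K × K,
      (algebraMap K (FiniteAdeleRing (𝓞 K) K) ξ.1,
        algebraMap K (FiniteAdeleRing (𝓞 K) K) ξ.2) ∈ B →
      (∃ a : 𝓞 K, (a : K) = (M : K) * ξ.1) ∧ (∃ b : 𝓞 K, (b : K) = (M : K) * ξ.2) := by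
  obtain ⟨M₁, h₁, hM₁⟩ := exists_den_of_isCompact139 K (Prod.fst '' B) (hB.image continuous_fst)
  obtain ⟨M₂, h₂, hM₂⟩ := exists_den_of_isCompact139 K (Prod.snd '' B) (hB.image continuous_snd)
  refine ⟨M₁ * M₂, mul_ne_zero h₁ h₂, fun ξ hξ => ⟨?_, ?_⟩⟩
  · exact exists_int_of_mem_denSet139 K ξ.1
      (denSet_mono139 K (dvd_mul_right M₁ M₂) (hM₁ ⟨_, hξ, rfl⟩))
  · exact exists_int_of_mem_denSet139 K ξ.2
      (denSet_mono139 K (dvd_mul_left M₂ M₁) (hM₂ ⟨_, hξ, rfl⟩))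

theorem summable_gaussG139 (B : Set (FiniteAdeleRing (𝓞 K) K × FiniteAdeleRing (𝓞 K) K))
    (hB : IsCompact B) (δ σ : ℝ) (hδ : 0 < δ) (hσ : 0 < σ) : Summable (gaussG139 K B δ σ) := by
  obtain ⟨M, hM0, hM⟩ := exists_den_pair139 K B hB
  have hc : 0 < δ * σ ^ 2 := by positivity
  have h1 := summable_gauss1_139 K M hM0 (δ * σ ^ 2) hc
  have h2 : Summable fun ξ : K × K =>
      gauss1_139 K M (δ * σ ^ 2) ξ.1 * gauss1_139 K M (δ * σ ^ 2) ξ.2 :=
    h1.mul_of_nonneg h1 (fun ξ => gauss1_139_nonneg K M _ ξ) (fun ξ => gauss1_139_nonneg K M _ ξ)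
  refine Summable.of_nonneg_of_le (gaussG139_nonneg K B δ σ) (fun ξ => ?_) h2
  by_cases hξ : (algebraMap K (FiniteAdeleRing (𝓞 K) K) ξ.1,
      algebraMap K (FiniteAdeleRing (𝓞 K) K) ξ.2) ∈ B
  · obtain ⟨ha, hb⟩ := hM ξ hξ
    have e1 : gaussG139 K B δ σ ξ = Real.exp (-(δ * σ ^ 2 * (q139 K ξ.1 + q139 K ξ.2))) :=
      Set.indicator_of_mem (s := {ξ : K × K | (algebraMap K (FiniteAdeleRing (𝓞 K) K) ξ.1,
        algebraMap K (FiniteAdeleRing (𝓞 K) K) ξ.2) ∈ B}) hξ _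
    have e2 : gauss1_139 K M (δ * σ ^ 2) ξ.1 = Real.exp (-(δ * σ ^ 2 * q139 K ξ.1)) :=
      Set.indicator_of_mem (s := {ξ : K | ∃ a : 𝓞 K, (a : K) = (M : K) * ξ}) ha _
    have e3 : gauss1_139 K M (δ * σ ^ 2) ξ.2 = Real.exp (-(δ * σ ^ 2 * q139 K ξ.2)) :=
      Set.indicator_of_mem (s := {ξ : K | ∃ a : 𝓞 K, (a : K) = (M : K) * ξ}) hb _
    rw [e1, e2, e3, ← Real.exp_add]
    apply le_of_eq
    congr 1
    ring
  · have e1 : gaussG139 K B δ σ ξ = 0 :=
      Set.indicator_of_notMem (s := {ξ : K × K | (algebraMap K (FiniteAdeleRing (𝓞 K) K) ξ.1,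
        algebraMap K (FiniteAdeleRing (𝓞 K) K) ξ.2) ∈ B}) hξ _
    rw [e1]
    exact mul_nonneg (gauss1_139_nonneg K M _ _) (gauss1_139_nonneg K M _ _)

theorem pow_mul_exp_neg_le139 (N : ℕ) (a σ₀ : ℝ) (ha : 0 < a) (hσ₀ : 0 < σ₀) (σ : ℝ)
    (hσ : σ₀ ≤ σ) :
    σ ^ N * Real.exp (-(a * σ ^ 2)) ≤ (N.factorial : ℝ) / (a ^ N * σ₀ ^ N) := by
  have hσpos : 0 < σ := lt_of_lt_of_le hσ₀ hσ
  have hx : 0 ≤ a * σ ^ 2 := by positivity
  have h1 := Real.pow_div_factorial_le_exp _ hx N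
  have hpos : 0 < (a * σ ^ 2) ^ N / (N.factorial : ℝ) := by positivity
  have h2 : Real.exp (-(a * σ ^ 2)) ≤ ((a * σ ^ 2) ^ N / (N.factorial : ℝ))⁻¹ := by
    rw [Real.exp_neg]
    exact inv_anti₀ hpos h1
  have h3 : σ ^ N * ((a * σ ^ 2) ^ N / (N.factorial : ℝ))⁻¹
      = (N.factorial : ℝ) / (a ^ N * σ ^ N) := by
    have ha' : a ≠ 0 := ha.ne'
    have hs' : σ ≠ 0 := hσpos.ne'
    rw [inv_div, mul_pow, ← pow_mul]
    field_simp
    ring
  have h4 : (N.factorial : ℝ) / (a ^ N * σ ^ N) ≤ (N.factorial : ℝ) / (a ^ N * σ₀ ^ N) := by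
    apply div_le_div_of_nonneg_left (by positivity) (by positivity)
    exact mul_le_mul_of_nonneg_left (pow_le_pow_left₀ hσ₀.le hσ N) (by positivity)
  calc σ ^ N * Real.exp (-(a * σ ^ 2))
      ≤ σ ^ N * ((a * σ ^ 2) ^ N / (N.factorial : ℝ))⁻¹ :=
        mul_le_mul_of_nonneg_left h2 (by positivity)
    _ = (N.factorial : ℝ) / (a ^ N * σ ^ N) := h3
    _ ≤ (N.factorial : ℝ) / (a ^ N * σ₀ ^ N) := h4

/-- **Core of A2.03.4.2.**  Gaussian sums over the rational vectors with finite part in a compact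
set: summable, and `σ^N ·` (the sum over `ξ ≠ 0`) is bounded on `σ ≥ σ₀`. -/
theorem gaussSum_core139 (B : Set (FiniteAdeleRing (𝓞 K) K × FiniteAdeleRing (𝓞 K) K))
    (hB : IsCompact B) (N : ℕ) (δ σ₀ : ℝ) (hδ : 0 < δ) (hσ₀ : 0 < σ₀) :
    ∃ C : ℝ, ∀ σ : ℝ, σ₀ ≤ σ →
      Summable (gaussG139 K B δ σ) ∧
      σ ^ N * ∑' ξ : K × K, Set.indicator {ξ : K × K | ξ ≠ 0} (gaussG139 K B δ σ) ξ ≤ C := by
  obtain ⟨M, hM0, hM⟩ := exists_den_pair139 K B hB
  have hMR : (0 : ℝ) < (M : ℝ) := Nat.cast_pos.mpr (Nat.pos_of_ne_zero hM0)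
  set ρ : ℝ := 1 / (M : ℝ) ^ 2 with hρ
  have hρpos : 0 < ρ := by positivity
  have hS₀ := summable_gaussG139 K B hB δ σ₀ hδ hσ₀
  set S₀ : ℝ := ∑' ξ : K × K, gaussG139 K B δ σ₀ ξ with hS₀def
  have hS₀nn : 0 ≤ S₀ := tsum_nonneg (gaussG139_nonneg K B δ σ₀)
  -- the lower bound of the quadratic form on the nonzero vectors
  have hq : ∀ ξ : K × K, ξ ≠ 0 →
      (algebraMap K (FiniteAdeleRing (𝓞 K) K) ξ.1,
        algebraMap K (FiniteAdeleRing (𝓞 K) K) ξ.2) ∈ B → ρ ≤ q139 K ξ.1 + q139 K ξ.2 := by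
    intro ξ hξ0 hξB
    obtain ⟨⟨a, ha⟩, ⟨b, hb⟩⟩ := hM ξ hξB
    have key : ∀ (x : K) (c : 𝓞 K), (c : K) = (M : K) * x → x ≠ 0 → ρ ≤ q139 K x := by
      intro x c hc hx
      have hc0 : c ≠ 0 := by
        rintro rfl
        have : (M : K) * x = 0 := by rw [← hc]; simp
        rcases mul_eq_zero.mp this with h | h
        · exact hM0 (Nat.cast_eq_zero.mp h)
        · exact hx h
      have h1 := one_le_q139 K c hc0
      rw [hc, q139_natCast_mul] at h1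
      rw [hρ, div_le_iff₀ (by positivity)]
      linarith
    by_cases h1 : ξ.1 = 0
    · have h2 : ξ.2 ≠ 0 := fun h2 => hξ0 (Prod.ext h1 h2)
      have := key ξ.2 b hb h2
      have := q139_nonneg K ξ.1
      linarith
    · have := key ξ.1 a ha h1
      have := q139_nonneg K ξ.2
      linarith
  refine ⟨(N.factorial : ℝ) / ((δ * ρ) ^ N * σ₀ ^ N) * Real.exp (δ * ρ * σ₀ ^ 2) * S₀,
    fun σ hσ => ?_⟩
  have hσpos : 0 < σ := lt_of_lt_of_le hσ₀ hσ
  have hsum := summable_gaussG139 K B hB δ σ hδ hσpos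
  refine ⟨hsum, ?_⟩
  set E : ℝ := Real.exp (-(δ * (σ ^ 2 - σ₀ ^ 2) * ρ)) with hE
  have hsq : σ₀ ^ 2 ≤ σ ^ 2 := pow_le_pow_left₀ hσ₀.le hσ 2
  -- termwise comparison
  have hterm : ∀ ξ : K × K,
      Set.indicator {ξ : K × K | ξ ≠ 0} (gaussG139 K B δ σ) ξ ≤ E * gaussG139 K B δ σ₀ ξ := by
    intro ξ
    have hRnn : 0 ≤ E * gaussG139 K B δ σ₀ ξ :=
      mul_nonneg (Real.exp_pos _).le (gaussG139_nonneg K B δ σ₀ ξ)
    by_cases hξ0 : ξ = 0
    · rw [Set.indicator_of_notMem (by simpa using hξ0)]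
      exact hRnn
    rw [Set.indicator_of_mem (show ξ ∈ {ξ : K × K | ξ ≠ 0} from hξ0)]
    by_cases hξB : (algebraMap K (FiniteAdeleRing (𝓞 K) K) ξ.1,
        algebraMap K (FiniteAdeleRing (𝓞 K) K) ξ.2) ∈ B
    · have e1 : gaussG139 K B δ σ ξ = Real.exp (-(δ * σ ^ 2 * (q139 K ξ.1 + q139 K ξ.2))) :=
        Set.indicator_of_mem (s := {ξ : K × K | (algebraMap K (FiniteAdeleRing (𝓞 K) K) ξ.1,
          algebraMap K (FiniteAdeleRing (𝓞 K) K) ξ.2) ∈ B}) hξB _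
      have e2 : gaussG139 K B δ σ₀ ξ = Real.exp (-(δ * σ₀ ^ 2 * (q139 K ξ.1 + q139 K ξ.2))) :=
        Set.indicator_of_mem (s := {ξ : K × K | (algebraMap K (FiniteAdeleRing (𝓞 K) K) ξ.1,
          algebraMap K (FiniteAdeleRing (𝓞 K) K) ξ.2) ∈ B}) hξB _
      rw [e1, e2, hE, ← Real.exp_add]
      apply Real.exp_le_exp.mpr
      have hqξ := hq ξ hξ0 hξB
      have h5 : 0 ≤ δ * (σ ^ 2 - σ₀ ^ 2) := mul_nonneg hδ.le (sub_nonneg.mpr hsq)
      nlinarith [mul_le_mul_of_nonneg_left hqξ h5]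
    · have e1 : gaussG139 K B δ σ ξ = 0 :=
        Set.indicator_of_notMem (s := {ξ : K × K | (algebraMap K (FiniteAdeleRing (𝓞 K) K) ξ.1,
          algebraMap K (FiniteAdeleRing (𝓞 K) K) ξ.2) ∈ B}) hξB _
      rw [e1]
      exact hRnn
  have hind : Summable (Set.indicator {ξ : K × K | ξ ≠ 0} (gaussG139 K B δ σ)) :=
    hsum.indicator _
  have htsum : ∑' ξ : K × K, Set.indicator {ξ : K × K | ξ ≠ 0} (gaussG139 K B δ σ) ξ
      ≤ E * S₀ := by
    rw [hS₀def, ← tsum_mul_left]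
    exact Summable.tsum_le_tsum hterm hind (hS₀.mul_left E)
  have hEbound : σ ^ N * E
      ≤ (N.factorial : ℝ) / ((δ * ρ) ^ N * σ₀ ^ N) * Real.exp (δ * ρ * σ₀ ^ 2) := by
    have h6 := pow_mul_exp_neg_le139 N (δ * ρ) σ₀ (by positivity) hσ₀ σ hσ
    have h7 : E = Real.exp (-(δ * ρ * σ ^ 2)) * Real.exp (δ * ρ * σ₀ ^ 2) := by
      rw [hE, ← Real.exp_add]
      congr 1
      ring
    rw [h7, ← mul_assoc]
    exact mul_le_mul_of_nonneg_right h6 (Real.exp_pos _).le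
  calc σ ^ N * ∑' ξ : K × K, Set.indicator {ξ : K × K | ξ ≠ 0} (gaussG139 K B δ σ) ξ
      ≤ σ ^ N * (E * S₀) := mul_le_mul_of_nonneg_left htsum (by positivity)
    _ = σ ^ N * E * S₀ := by ring
    _ ≤ (N.factorial : ℝ) / ((δ * ρ) ^ N * σ₀ ^ N) * Real.exp (δ * ρ * σ₀ ^ 2) * S₀ :=
        mul_le_mul_of_nonneg_right hEbound hS₀nn

end Fermat.Agent.LT.A2.H139
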