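import Fermat.Agent.LT.A2.H904.LiftBddSpec
import Fermat.Agent.LT.A2.H139.GaussLat

/-!
# Row LT, tower A2, sub-leaf A2.03.4.2: `H904.GaussSumC` (helper139)

OFF-MAIN.  `gaussSumC139 : Fermat.Agent.LT.A2.H904.GaussSumC`, unconditional.
Spec: `LT/A2/H904/LiftBddSpec.lean` (helper904@539b3999f, sha256 45227c3c…), byte-identical copy.
Proof: `GaussDen.lean` (bounded denominators of a compact set of finite adeles) and
`GaussLat.lean` (Gaussian sums over the lattice `M⁻¹ 𝒪_K²`, `q ≥ M⁻²` on the nonzero vectors).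
-/

set_option autoImplicit false

open IsDedekindDomain NumberField

noncomputable section

namespace Fermat.Agent.LT.A2.H139

theorem norm_inf139 (K : Type) [Field K] [NumberField K] (x : K) (w : InfinitePlace K) :
    ‖(algebraMap K (InfiniteAdeleRing K) x) w‖ = w x := by
  rw [InfiniteAdeleRing.algebraMap_apply]
  exact InfinitePlace.Completion.norm_coe (v := w) _

theorem gaussT_eq139 (K : Type) [Field K] [NumberField K]
    (B : Set (FiniteAdeleRing (𝓞 K) K × FiniteAdeleRing (𝓞 K) K)) (δ σ : ℝ) :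
    H904.gaussT B δ σ = gaussG139 K B δ σ := by
  funext ξ
  have hq : (∑ w : InfinitePlace K, (‖(ratV ξ).1.1 w‖ ^ 2 + ‖(ratV ξ).2.1 w‖ ^ 2))
      = q139 K ξ.1 + q139 K ξ.2 := by
    unfold q139
    rw [← Finset.sum_add_distrib]
    refine Finset.sum_congr rfl fun w _ => ?_
    have h1 : ‖(ratV ξ).1.1 w‖ = w ξ.1 := norm_inf139 K ξ.1 w
    have h2 : ‖(ratV ξ).2.1 w‖ = w ξ.2 := norm_inf139 K ξ.2 w
    rw [h1, h2]
  unfold H904.gaussT gaussG139
  by_cases hξ : ((ratV ξ).1.2, (ratV ξ).2.2) ∈ B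
  · rw [Set.indicator_of_mem (show ξ ∈ {ξ : K × K | ((ratV ξ).1.2, (ratV ξ).2.2) ∈ B} from hξ),
      Set.indicator_of_mem (show ξ ∈ {ξ : K × K |
        (algebraMap K (FiniteAdeleRing (𝓞 K) K) ξ.1,
          algebraMap K (FiniteAdeleRing (𝓞 K) K) ξ.2) ∈ B} from hξ), hq]
  · rw [Set.indicator_of_notMem
        (show ξ ∉ {ξ : K × K | ((ratV ξ).1.2, (ratV ξ).2.2) ∈ B} from hξ),
      Set.indicator_of_notMem (show ξ ∉ {ξ : K × K |
        (algebraMap K (FiniteAdeleRing (𝓞 K) K) ξ.1,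
          algebraMap K (FiniteAdeleRing (𝓞 K) K) ξ.2) ∈ B} from hξ)]

/-- **A2.03.4.2 GAUSS-SUM** (`H904.GaussSumC`), unconditional. -/
theorem gaussSumC139 : H904.GaussSumC := by
  intro K _ _ B hB N δ σ₀ hδ hσ₀
  obtain ⟨C, hC⟩ := gaussSum_core139 K B hB N δ σ₀ hδ hσ₀
  refine ⟨C, fun σ hσ => ?_⟩
  rw [gaussT_eq139]
  exact hC σ hσ

end Fermat.Agent.LT.A2.H139
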